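import Mathlib
import Fermat.Agent.LT.H556.A0
import Fermat.Agent.LT.T5.Spec
import Fermat.Agent.LT.T7.Level2

/-!
# Row LT, tower T7, node T7.L2.1 `SupplyC`, part (C3) = PROJ: the fields `proj_up` / `proj_down`
# of `T7.IsL2Data` -- SUB-SPEC (helper40, assist of the sub-architect helper893)

OFF-MAIN.  Definitions, frozen Props, PROVED tops.  No hole, nothing assumed.
ADDITIVE (new names only).  Vocabulary: A0, `T5/Spec.lean` v4, `T7/Level2.lean` (15516646).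

## The statement

`ProjC K`: for a frame `(μ, F)`, a ray generator `r`, levels `𝔑 ≤ 𝔑₀`, `𝔑 ≠ 0`, and places
`o 0, …, o (l-1)`: every cusp function `ψ` of level `𝔑` (trivial `K_∞`-type) has an orthogonal
projection `ψ₁` on the INVARIANT cusp functions `T7.IsWFn 𝔑₀ r l o` (level `𝔑₀`, invariant under
the positive scalars at every infinite place and under the Iwahori subgroups at the `o j`):
`ψ₁` is invariant and `ψ - ψ₁` is orthogonal on `F` to every invariant `χ`.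

The two fields `proj_up`, `proj_down` of `T7.IsL2Data` are instances (`proj_up40`,
`proj_down40`): they do not depend on the families of test functions.

## The cut

    ProjC K  ⇐  ArchProjC K + FinProjC K                         (`projC_of40`, PROVED here)

* `ArchProjC K` (the mean over the compact torus of positive scalars): `ψ` of level `𝔑` has a
  projection `ψ₂` (same level) on the cusp functions invariant under the positive scalars at
  infinity.  Route: `A⁺ = ∏_w ℝ_{>0}` (central); `ψ` is invariant under `r` and under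
  `|ε|_∞ = (|ε|_w)_w` for every unit `ε ≡ 1 mod 𝔑` (`ε` is central in `GL₂(K)`, its finite part
  lies in `U(𝔑)`, its phases at infinity in the groups `K_w`); by Dirichlet's unit theorem
  (`NumberField.Units.dirichletUnitTheorem`) these periods contain a basis `b` of
  `ℝ^{places}`; `ψ₂(g) = vol(D)⁻¹ ∫_D ψ(g z(t)) dt`, `D = ZSpan.fundamentalDomain b`,
  `z(t)` = the scalar `e^{t_w}` at `w`.  Invariance: translation invariance of the integral of a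
  periodic function over a fundamental domain; cuspidality and the inner products: Fubini
  (bounded continuous functions, finite measures) and `TranslInnerC`.
* `FinProjC K` (the mean over the finite group `U(𝔑₀) I_o / U(𝔑)`): `ψ` of level `𝔑` has a
  projection `ψ₁` on the cusp functions of level `𝔑₀` which are invariant under the Iwahori
  subgroups at the `o j`; `ψ₁` is invariant under the positive scalars if `ψ` is.
  Route: `𝒦 = U(𝔑₀) · I_o` is a subgroup of `GL₂(𝒪̂)` (`U(𝔑₀)` is normal in `GL₂(𝒪̂)`), `U(𝔑)` is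
  normal of finite index in `𝒦` (compact / open, or `GL₂(𝒪/𝔑)` finite);
  `ψ₁ = |H|⁻¹ ∑_{h ∈ H} ψ(· h)`, `H` a full system of representatives of `𝒦 / U(𝔑)`.
* `TranslInnerC K` (SHARED TOOL of the two leaves, not used by the top): for `Ψ` continuous,
  bounded, left invariant under `GL₂(K)` and right invariant under `r`, and EVERY `h`:
  `∫_F Ψ(x h) dμ = ∫_F Ψ dμ`  (`F` and `F h` are fundamental domains of `GL₂(K) × r^ℤ`;
  tiles of helper277, `LT/T5/H277/Unfold.lean`).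
-/

set_option autoImplicit false

open AutomorphicForm IsDedekindDomain NumberField MeasureTheory
open scoped ComplexConjugate

noncomputable section

namespace Fermat.Agent.LT.T7.H40

open Fermat.Agent.LT.H556 Fermat.Agent.LT.H556.A0 Fermat.Agent.LT.T7

attribute [local instance] Fermat.Agent.LT.T5.instMeasurableSpaceG

/-! ## 1. Vocabulary -/

section Vocabulary

variable {K : Type} [Field K] [NumberField K]

/-- `ψ` is right invariant under the positive scalars at every infinite place (the field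
`arch_scalar` of `T7.IsWFn`). -/
def IsPosInv (ψ : G K → ℂ) : Prop :=
  ∀ (w : InfinitePlace K) (z : G K), IsArchPosScalar w z → ∀ g : G K, ψ (g * z) = ψ g

end Vocabulary

/-! ## 2. The Props -/

section Props

variable (K : Type) [Field K] [NumberField K]

/-- **THE TARGET: the orthogonal projection on the invariant cusp functions.** -/
def ProjC : Prop :=
  ∀ (μ : Measure (G K)) (F : Set (G K)) (r : G K), T5.IsFrame μ F → T5.IsRayGen r →
  ∀ 𝔑 𝔑₀ : Ideal (𝓞 K), 𝔑 ≠ ⊥ → 𝔑 ≤ 𝔑₀ →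
  ∀ (l : ℕ) (o : ℕ → HeightOneSpectrum (𝓞 K)) (ψ : G K → ℂ),
    T5.IsCuspFn 𝔑 T5.trivType r ψ →
    ∃ ψ₁ : G K → ℂ, IsWFn 𝔑₀ r l o ψ₁ ∧
      ∀ χ : G K → ℂ, IsWFn 𝔑₀ r l o χ → T5.innerD μ F (fun x => ψ x - ψ₁ x) χ = 0

/-- **LEAF ARCH-PROJ** (mean over the compact torus of positive scalars at infinity; Dirichlet's
unit theorem).  See the header. -/
def ArchProjC : Prop :=
  ∀ (μ : Measure (G K)) (F : Set (G K)) (r : G K), T5.IsFrame μ F → T5.IsRayGen r →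
  ∀ 𝔑 : Ideal (𝓞 K), 𝔑 ≠ ⊥ →
  ∀ ψ : G K → ℂ, T5.IsCuspFn 𝔑 T5.trivType r ψ →
    ∃ ψ₂ : G K → ℂ, T5.IsCuspFn 𝔑 T5.trivType r ψ₂ ∧ IsPosInv ψ₂ ∧
      ∀ χ : G K → ℂ, T5.IsCuspFn 𝔑 T5.trivType r χ → IsPosInv χ →
        T5.innerD μ F (fun x => ψ x - ψ₂ x) χ = 0

/-- **LEAF FIN-PROJ** (mean over the finite group `U(𝔑₀) I_o / U(𝔑)`).  See the header. -/
def FinProjC : Prop :=
  ∀ (μ : Measure (G K)) (F : Set (G K)) (r : G K), T5.IsFrame μ F → T5.IsRayGen r →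
  ∀ 𝔑 𝔑₀ : Ideal (𝓞 K), 𝔑 ≠ ⊥ → 𝔑 ≤ 𝔑₀ →
  ∀ (l : ℕ) (o : ℕ → HeightOneSpectrum (𝓞 K)) (ψ : G K → ℂ),
    T5.IsCuspFn 𝔑 T5.trivType r ψ →
    ∃ ψ₁ : G K → ℂ, T5.IsCuspFn 𝔑₀ T5.trivType r ψ₁ ∧ IsIwInv l o ψ₁ ∧
      (IsPosInv ψ → IsPosInv ψ₁) ∧
      ∀ χ : G K → ℂ, T5.IsCuspFn 𝔑₀ T5.trivType r χ → IsIwInv l o χ →
        T5.innerD μ F (fun x => ψ x - ψ₁ x) χ = 0

/-- **SHARED TOOL TRANSL-INNER** (invariance of the integral over the fundamental domain under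
right translations).  For `Ψ` continuous, bounded, left invariant under `GL₂(K)` and right
invariant under the ray generator `r`, and every `h ∈ GL₂(𝔸_K)`: `∫_F Ψ(x h) dμ = ∫_F Ψ dμ`. -/
def TranslInnerC : Prop :=
  ∀ (μ : Measure (G K)) (F : Set (G K)) (r : G K), T5.IsFrame μ F → T5.IsRayGen r →
  ∀ Ψ : G K → ℂ, Continuous Ψ → (∃ C : ℝ, ∀ g : G K, ‖Ψ g‖ ≤ C) →
    (∀ (γ : GL (Fin 2) K) (g : G K), Ψ (T5.ratG γ * g) = Ψ g) →
    (∀ g : G K, Ψ (g * r) = Ψ g) →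
    ∀ h : G K, ∫ x in F, Ψ (x * h) ∂μ = ∫ x in F, Ψ x ∂μ

end Props

/-! ## 3. The top -/

section Top

/-- Splitting of an inner product (abstract form: bounded measurable functions on a finite
measure space). -/
theorem integral_sub_split40 {α : Type*} [MeasurableSpace α] (ν : Measure α) [IsFiniteMeasure ν]
    (a b c d : α → ℂ) (ha : AEStronglyMeasurable a ν) (hb : AEStronglyMeasurable b ν)
    (hc : AEStronglyMeasurable c ν) (hd : AEStronglyMeasurable d ν)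
    (Ba : ∃ C : ℝ, ∀ x, ‖a x‖ ≤ C) (Bb : ∃ C : ℝ, ∀ x, ‖b x‖ ≤ C)
    (Bc : ∃ C : ℝ, ∀ x, ‖c x‖ ≤ C) (Bd : ∃ C : ℝ, ∀ x, ‖d x‖ ≤ C) :
    ∫ x, (a x - c x) * conj (d x) ∂ν
      = (∫ x, (a x - b x) * conj (d x) ∂ν) + ∫ x, (b x - c x) * conj (d x) ∂ν := by
  obtain ⟨Ca, hCa⟩ := Ba
  obtain ⟨Cb, hCb⟩ := Bb
  obtain ⟨Cc, hCc⟩ := Bc
  obtain ⟨Cd, hCd⟩ := Bd
  have hdc : AEStronglyMeasurable (fun x => conj (d x)) ν :=
    Complex.continuous_conj.comp_aestronglyMeasurable hd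
  have key : ∀ (p q : α → ℂ) (Cp Cq : ℝ), AEStronglyMeasurable p ν →
      AEStronglyMeasurable q ν → (∀ x, ‖p x‖ ≤ Cp) → (∀ x, ‖q x‖ ≤ Cq) →
      Integrable (fun x => (p x - q x) * conj (d x)) ν := by
    intro p q Cp Cq hp hq hCp hCq
    refine Integrable.of_bound ((hp.sub hq).mul hdc) ((Cp + Cq) * Cd)
      (Filter.Eventually.of_forall fun x => ?_)
    rw [norm_mul, RCLike.norm_conj]
    have h1 : ‖p x - q x‖ ≤ Cp + Cq := (norm_sub_le _ _).trans (add_le_add (hCp x) (hCq x))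
    have h0 : 0 ≤ Cp + Cq := (norm_nonneg _).trans h1
    exact mul_le_mul h1 (hCd x) (norm_nonneg _) h0
  rw [← integral_add (key a b Ca Cb ha hb hCa hCb) (key b c Cb Cc hb hc hCb hCc)]
  refine integral_congr_ae (Filter.Eventually.of_forall fun x => ?_)
  simp only
  ring

variable {K : Type} [Field K] [NumberField K]

/-- The closure of a smaller ideal is smaller. -/
theorem idealClosure_mono40 {𝔑 𝔑₀ : Ideal (𝓞 K)} (h : 𝔑 ≤ 𝔑₀) (v : HeightOneSpectrum (𝓞 K)) :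
    idealClosure 𝔑 v ⊆ idealClosure 𝔑₀ v :=
  closure_mono (Set.image_mono h)

/-- `U(𝔑) ⊆ U(𝔑₀)` for `𝔑 ≤ 𝔑₀`. -/
theorem inLevelGroup_mono40 {𝔑 𝔑₀ : Ideal (𝓞 K)} (h : 𝔑 ≤ 𝔑₀) {u : G K}
    (hu : InLevelGroup 𝔑 u) : InLevelGroup 𝔑₀ u :=
  ⟨hu.1, fun v i j => ⟨idealClosure_mono40 h v (hu.2 v i j).1,
    idealClosure_mono40 h v (hu.2 v i j).2⟩⟩

/-- A cusp function of level `𝔑₀` is a cusp function of every level `𝔑 ≤ 𝔑₀`. -/
theorem isCuspFn_mono40 {𝔑 𝔑₀ : Ideal (𝓞 K)} (h : 𝔑 ≤ 𝔑₀) {τ : G K → ℂ} {r : G K}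
    {e : G K → ℂ} (he : T5.IsCuspFn 𝔑₀ τ r e) : T5.IsCuspFn 𝔑 τ r e where
  cont := he.cont
  bdd := he.bdd
  aut :=
    { left_inv := he.aut.left_inv
      level_inv := fun u hu g => he.aut.level_inv u (inLevelGroup_mono40 h hu) g
      arch_compact := he.aut.arch_compact
      ray := he.aut.ray }
  cuspidal := he.cuspidal

/-- **THE TOP of PROJ.** -/
theorem projC_of40 (hA : ArchProjC K) (hF : FinProjC K) : ProjC K := by
  intro μ F r hFr hr 𝔑 𝔑₀ h𝔑 hle l o ψ hψ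
  obtain ⟨ψ₂, hψ₂, hinv₂, horth₂⟩ := hA μ F r hFr hr 𝔑 h𝔑 ψ hψ
  obtain ⟨ψ₁, hψ₁, hiw₁, hpos₁, horth₁⟩ := hF μ F r hFr hr 𝔑 𝔑₀ h𝔑 hle l o ψ₂ hψ₂
  refine ⟨ψ₁, ⟨hψ₁, hpos₁ hinv₂, hiw₁⟩, fun χ hχ => ?_⟩
  have e1 := horth₂ χ (isCuspFn_mono40 hle hχ.cusp) hχ.arch_scalar
  have e2 := horth₁ χ hχ.cusp hχ.iw
  have : BorelSpace (G K) := ⟨rfl⟩
  have : IsFiniteMeasure (μ.restrict F) := ⟨by simpa using hFr.finite⟩
  unfold T5.innerD at e1 e2 ⊢
  rw [integral_sub_split40 (μ.restrict F) ψ ψ₂ ψ₁ χ hψ.cont.aestronglyMeasurable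
    hψ₂.cont.aestronglyMeasurable hψ₁.cont.aestronglyMeasurable hχ.cusp.cont.aestronglyMeasurable
    hψ.bdd hψ₂.bdd hψ₁.bdd hχ.cusp.bdd, e1, e2, add_zero]

end Top

/-! ## 4. The two fields of `T7.IsL2Data` -/

section Fields

variable {K K' : Type} [Field K] [NumberField K] [Field K'] [NumberField K'] [Algebra K K']

set_option linter.unusedSectionVars false in

/-- The extension of a non-zero ideal is not zero. -/
theorem map_ne_bot40 {𝔫 : Ideal (𝓞 K)} (h : 𝔫 ≠ ⊥) :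
    Ideal.map (algebraMap (𝓞 K) (𝓞 K')) 𝔫 ≠ ⊥ := by
  intro h0
  apply h
  exact (Ideal.map_eq_bot_iff_of_injective
    (FaithfulSMul.algebraMap_injective (𝓞 K) (𝓞 K'))).1 h0

/-- **The field `proj_up` of `T7.IsL2Data`** (for one bad element `g`) from `ProjC K'`. -/
theorem proj_up40 (hP : ProjC K') (Dt : L2Data K K') (ℓ : ℕ) (g : G K')
    (hcomp : IsCompData (Dt.comp g)) (hlev : Dt.𝔑 g ≤ Dt.𝔑₀) :
    ∀ ψ : G K' → ℂ, T5.IsCuspFn (Dt.𝔑 g) T5.trivType Dt.R'.r ψ →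
    ∃ ψ₁ : G K' → ℂ, IsWFn Dt.𝔑₀ Dt.R'.r ℓ Dt.o ψ₁ ∧
      ∀ χ : G K' → ℂ, IsWFn Dt.𝔑₀ Dt.R'.r ℓ Dt.o χ →
        T5.innerD Dt.R'.μ Dt.R'.F (fun x => ψ x - ψ₁ x) χ = 0 :=
  fun ψ hψ => hP Dt.R'.μ Dt.R'.F Dt.R'.r hcomp.frame'.frame hcomp.frame'.ray (Dt.𝔑 g) Dt.𝔑₀
    (map_ne_bot40 hcomp.level_ne) hlev ℓ Dt.o ψ hψ

/-- **The field `proj_down` of `T7.IsL2Data`** (for one bad element `g`) from `ProjC K`. -/
theorem proj_down40 (hP : ProjC K) (Dt : L2Data K K') (g : G K')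
    (hcomp : IsCompData (Dt.comp g)) :
    ∀ ψ : G K → ℂ, T5.IsCuspFn (Dt.𝔫 g) T5.trivType Dt.R.r ψ →
    ∃ ψ₁ : G K → ℂ, IsWFn (Dt.𝔫 g) Dt.R.r 1 (fun _ => Dt.u) ψ₁ ∧
      ∀ χ : G K → ℂ, IsWFn (Dt.𝔫 g) Dt.R.r 1 (fun _ => Dt.u) χ →
        T5.innerD Dt.R.μ Dt.R.F (fun x => ψ x - ψ₁ x) χ = 0 :=
  fun ψ hψ => hP Dt.R.μ Dt.R.F Dt.R.r hcomp.frame.frame hcomp.frame.ray (Dt.𝔫 g) (Dt.𝔫 g)
    hcomp.level_ne le_rfl 1 (fun _ => Dt.u) ψ hψ

end Fields

end Fermat.Agent.LT.T7.H40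

end
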