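import Mathlib
import Fermat.Agent.LT.H556.A0
import Fermat.Agent.LT.T1.Spec
import Fermat.Agent.LT.T5.Spec
import Fermat.Agent.LT.T7.Level2
import Fermat.Agent.LT.T7.H40.ProjSpec

/-!
# Row LT, tower T7, node T7.L2.1 `SupplyC`, part (C3) = PROJ, leaf `ArchProjC` -- SUB-SPEC
# (helper40): the mean over the compact torus of positive scalars at infinity

OFF-MAIN.  Definitions, frozen Props, PROVED tops.  No hole, nothing assumed.
ADDITIVE (new names only).  Vocabulary: A0, `T1/Spec.lean`, `T5/Spec.lean` v4,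
`T7/H40/ProjSpec.lean` (ac5b80ed).

## The cut

    ArchProjC K  ⇐  T1Out K + TranslInnerC K + PeriodFamilyC K + AvgCuspC K + AvgInvC K + AvgOrthC K
                                                                  (`archProjC_of40`, PROVED here)
    AvgCuspC K  ⇐  AvgContC K + AvgAutC K + AvgCuspidalC K        (`avgCuspC_of40`, PROVED here)
    PeriodFamilyC K  ⇐  PosFamilyC K + PosScalarC K + UnitPeriodsC K + RayLogC K + UnitPeriodC K
                                                                  (`periodFamilyC_of40`, PROVED here)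

`ι = InfinitePlace K`.  A PERIOD FAMILY `Y : (ι → ℝ) → GL₂(𝔸_K)` (`IsPeriodFamily40 𝔑 r Y`) is a
continuous central homomorphism whose image is the group of positive scalars at infinity and
such that every automorphic function of level `𝔑` (trivial type, ray generator `r`) is right
invariant under `Y n`, `n ∈ ℤ^ι`.  The projection is the mean over the unit cube
`cube40 K = [0,1)^ι` (volume `1`):

    archAvg40 Y ψ g = ∫_{cube40 K} ψ (g * Y t) dt.

## The leaves

ADELIC (the period family):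
* `PosFamilyC K`: the family `Z t` = the scalar matrix `(e^{t_w})_w` at infinity, `1` at the
  finite places (continuous central homomorphism).
* `PosScalarC K`: every positive scalar at `w` is a `Z t`; a function invariant under the
  positive scalars at every place is invariant under every `Z t`.
* `UnitPeriodsC K` (Mathlib only; Dirichlet's unit theorem): for `𝔑 ≠ 0`, `c ≠ 0` there is a
  linearly independent family `b : ι → (ι → ℝ)`, each `b i` being the constant vector `c` or
  `(log |ε|_w)_w` for a unit `ε ≡ 1 mod 𝔑`.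
* `RayLogC K`: the ray generator is `Z (c, …, c)`, `c = log t₀ ≠ 0`.
* `UnitPeriodC K`: an automorphic function of level `𝔑` and trivial type is right invariant
  under `Z (log |ε|_w)_w` for every unit `ε ≡ 1 mod 𝔑` (`ε` is central in `GL₂(K)`; its finite
  part lies in `U(𝔑)`, its phases at infinity in the groups `K_w`).

MEASURE THEORY (the mean):
* `AvgContC K`: the mean of a bounded continuous function along a continuous family is
  continuous.
* `AvgAutC K`: the mean of a cusp function is bounded and automorphic of the same level.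
* `AvgCuspidalC K`: the mean of a cusp function is cuspidal (Fubini).
* `AvgInvC K`: the mean is invariant under the positive scalars.
* `AvgOrthC K`: `ψ - mean ψ` is orthogonal to the invariant cusp functions (Fubini +
  `TranslInnerC`; the mean is a cusp function by `AvgCuspC`, given as a hypothesis).
-/

set_option autoImplicit false

open AutomorphicForm IsDedekindDomain NumberField MeasureTheory
open scoped ComplexConjugate

noncomputable section

namespace Fermat.Agent.LT.T7.H40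

open Fermat.Agent.LT.H556 Fermat.Agent.LT.H556.A0 Fermat.Agent.LT.T7

attribute [local instance] Fermat.Agent.LT.T5.instMeasurableSpaceG

/-! ## 1. Vocabulary -/

section Vocabulary

variable {K : Type} [Field K] [NumberField K]

/-- The family of positive scalars at infinity: `Z t` is the scalar matrix `e^{t_w}` at the
infinite place `w` and `1` at the finite places. -/
structure IsPosFamily40 (Z : (InfinitePlace K → ℝ) → G K) : Prop where
  cont : Continuous Z
  mul : ∀ s t : InfinitePlace K → ℝ, Z (s + t) = Z s * Z t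
  central : ∀ (t : InfinitePlace K → ℝ) (g : G K), Z t * g = g * Z t
  fin_triv : ∀ (t : InfinitePlace K → ℝ) (v : HeightOneSpectrum (𝓞 K)), TrivAtFin v (Z t)
  inf_comp : ∀ (t : InfinitePlace K → ℝ) (w : InfinitePlace K),
    infComp w (Z t) = Matrix.diagonal (fun _ => ((Real.exp (t w) : ℝ) : ℂ))

/-- A period family for the level `𝔑` and the ray generator `r`. -/
structure IsPeriodFamily40 (𝔑 : Ideal (𝓞 K)) (r : G K) (Y : (InfinitePlace K → ℝ) → G K) :
    Prop where
  cont : Continuous Y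
  mul : ∀ s t : InfinitePlace K → ℝ, Y (s + t) = Y s * Y t
  central : ∀ (t : InfinitePlace K → ℝ) (g : G K), Y t * g = g * Y t
  /-- a function invariant under the positive scalars is invariant under `Y t` -/
  pos_inv : ∀ χ : G K → ℂ, IsPosInv χ → ∀ (t : InfinitePlace K → ℝ) (g : G K),
    χ (g * Y t) = χ g
  /-- every positive scalar is a `Y t` -/
  surj : ∀ (w : InfinitePlace K) (z : G K), IsArchPosScalar w z →
    ∃ t : InfinitePlace K → ℝ, z = Y t
  /-- the integral vectors are periods of the automorphic functions of level `𝔑` -/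
  period : ∀ ψ : G K → ℂ, T5.IsAutomorphicFn 𝔑 T5.trivType r ψ →
    ∀ (n : InfinitePlace K → ℤ) (g : G K), ψ (g * Y (fun w => (n w : ℝ))) = ψ g

/-- The unit cube `[0,1)^ι` of `ℝ^ι`, `ι` = the set of infinite places (volume `1`; a
fundamental domain of `ℤ^ι`). -/
def cube40 (K : Type) [Field K] [NumberField K] : Set (InfinitePlace K → ℝ) :=
  Set.univ.pi fun _ => Set.Ico (0 : ℝ) 1

/-- The mean of `ψ` over the unit cube along the family `Y`. -/
def archAvg40 (Y : (InfinitePlace K → ℝ) → G K) (ψ : G K → ℂ) : G K → ℂ :=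
  fun g => ∫ t in cube40 K, ψ (g * Y t)

end Vocabulary

/-! ## 2. The Props -/

section Props

variable (K : Type) [Field K] [NumberField K]

/-- **NODE PERIOD-FAMILY**: a period family exists for every level `𝔑 ≠ 0` and every ray
generator.  Cut below (`periodFamilyC_of40`). -/
def PeriodFamilyC : Prop :=
  ∀ 𝔑 : Ideal (𝓞 K), 𝔑 ≠ ⊥ → ∀ r : G K, T5.IsRayGen r →
    ∃ Y : (InfinitePlace K → ℝ) → G K, IsPeriodFamily40 𝔑 r Y

/-- **NODE AVG-CUSP**: the mean of a cusp function is a cusp function.  Cut below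
(`avgCuspC_of40`). -/
def AvgCuspC : Prop :=
  T1.T1Out K →
  ∀ (𝔑 : Ideal (𝓞 K)) (r : G K) (Y : (InfinitePlace K → ℝ) → G K), IsPeriodFamily40 𝔑 r Y →
  ∀ ψ : G K → ℂ, T5.IsCuspFn 𝔑 T5.trivType r ψ →
    T5.IsCuspFn 𝔑 T5.trivType r (archAvg40 Y ψ)

/-- **LEAF AVG-CONT**: the mean of a bounded continuous function along a continuous family is
continuous.  Dominated convergence (`MeasureTheory.continuous_of_dominated`; `T1.LocCompC`:
`GL₂(𝔸_K)` is second countable, hence first countable), the cube has volume `1`. -/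
def AvgContC : Prop :=
  T1.T1Out K →
  ∀ Y : (InfinitePlace K → ℝ) → G K, Continuous Y →
  ∀ ψ : G K → ℂ, Continuous ψ → (∃ C : ℝ, ∀ g : G K, ‖ψ g‖ ≤ C) →
    Continuous (archAvg40 Y ψ)

/-- **LEAF AVG-AUT**: the mean of a cusp function is bounded and automorphic of the same level
(`Y t` is central; the cube has volume `1`). -/
def AvgAutC : Prop :=
  ∀ (𝔑 : Ideal (𝓞 K)) (r : G K) (Y : (InfinitePlace K → ℝ) → G K), IsPeriodFamily40 𝔑 r Y →
  ∀ ψ : G K → ℂ, T5.IsCuspFn 𝔑 T5.trivType r ψ →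
    (∃ C : ℝ, ∀ g : G K, ‖archAvg40 Y ψ g‖ ≤ C) ∧
      T5.IsAutomorphicFn 𝔑 T5.trivType r (archAvg40 Y ψ)

/-- **LEAF AVG-CUSPIDAL**: the mean of a cusp function is cuspidal.  Fubini on `D × cube`
(`MeasureTheory.integral_integral_swap`): the integrand `(x, t) ↦ ψ (n x * g * Y t)` is
continuous and bounded, the cube has volume `1` and every fundamental domain `D` of `K` in
`𝔸_K` has finite measure (`T1.AddFundDomC` + `IsAddFundamentalDomain.measure_eq`, `K` is
countable); then `∫_D ψ (n x * (g * Y t)) dx = 0` for every `t`. -/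
def AvgCuspidalC : Prop :=
  T1.T1Out K →
  ∀ (𝔑 : Ideal (𝓞 K)) (r : G K) (Y : (InfinitePlace K → ℝ) → G K), IsPeriodFamily40 𝔑 r Y →
  ∀ ψ : G K → ℂ, T5.IsCuspFn 𝔑 T5.trivType r ψ → IsCuspidalFn (archAvg40 Y ψ)

/-- **LEAF AVG-INV**: the mean is invariant under the positive scalars.  `z = Y t₀` (`surj`),
`t ↦ ψ (g * Y t)` is `ℤ^ι`-periodic (`period`), the cube and its translate by `t₀` are
fundamental domains of `ℤ^ι` (`ZSpan.isAddFundamentalDomain`,
`ZSpan.fundamentalDomain_pi_basisFun`, `IsAddFundamentalDomain.setIntegral_eq`). -/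
def AvgInvC : Prop :=
  ∀ (𝔑 : Ideal (𝓞 K)) (r : G K) (Y : (InfinitePlace K → ℝ) → G K), IsPeriodFamily40 𝔑 r Y →
  ∀ ψ : G K → ℂ, T5.IsCuspFn 𝔑 T5.trivType r ψ → IsPosInv (archAvg40 Y ψ)

/-- **LEAF AVG-ORTH**: `ψ - mean ψ` is orthogonal on `F` to every cusp function invariant under
the positive scalars.  Fubini on `F × cube` (finite measures, bounded continuous integrand),
`χ (x * Y t) = χ x` (`pos_inv`), `TranslInnerC` for `Ψ = ψ · conj χ` and `h = Y t`,
`volume (cube40 K) = 1`. -/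
def AvgOrthC : Prop :=
  T1.T1Out K → TranslInnerC K → AvgCuspC K →
  ∀ (μ : Measure (G K)) (F : Set (G K)) (r : G K), T5.IsFrame μ F → T5.IsRayGen r →
  ∀ (𝔑 : Ideal (𝓞 K)) (Y : (InfinitePlace K → ℝ) → G K), IsPeriodFamily40 𝔑 r Y →
  ∀ ψ : G K → ℂ, T5.IsCuspFn 𝔑 T5.trivType r ψ →
  ∀ χ : G K → ℂ, T5.IsCuspFn 𝔑 T5.trivType r χ → IsPosInv χ →
    T5.innerD μ F (fun x => ψ x - archAvg40 Y ψ x) χ = 0

/-- **LEAF POS-FAMILY**: the family of positive scalars exists. -/
def PosFamilyC : Prop :=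
  ∃ Z : (InfinitePlace K → ℝ) → G K, IsPosFamily40 Z

/-- **LEAF POS-SCALAR**: the positive scalars at one place are values of `Z`, and invariance
under the positive scalars at every place gives invariance under every `Z t`
(`Z t = ∏_w Z (t_w e_w)`; extensionality of `GL₂(𝔸_K)` in the local components). -/
def PosScalarC : Prop :=
  ∀ Z : (InfinitePlace K → ℝ) → G K, IsPosFamily40 Z →
    (∀ (w : InfinitePlace K) (z : G K), IsArchPosScalar w z →
      ∃ t : InfinitePlace K → ℝ, z = Z t) ∧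
    ∀ χ : G K → ℂ, IsPosInv χ → ∀ (t : InfinitePlace K → ℝ) (g : G K), χ (g * Z t) = χ g

/-- **LEAF UNIT-PERIODS** (Mathlib only).  Dirichlet's unit theorem: the vectors
`(log |ε|_w)_w`, `ε` a unit `≡ 1 mod 𝔑`, span the hyperplane `∑_w [K_w : ℝ] x_w = 0`
(`NumberField.Units.unitLattice_span_eq_top`; the units `≡ 1 mod 𝔑` contain the `N`-th powers,
`N = |(𝒪/𝔑)ˣ|`), and the constant vector `c ≠ 0` does not lie in it. -/
def UnitPeriodsC : Prop :=
  ∀ 𝔑 : Ideal (𝓞 K), 𝔑 ≠ ⊥ → ∀ c : ℝ, c ≠ 0 →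
    ∃ b : InfinitePlace K → (InfinitePlace K → ℝ), LinearIndependent ℝ b ∧
      ∀ i : InfinitePlace K, (b i = fun _ => c) ∨
        ∃ ε : (𝓞 K)ˣ, ((ε : 𝓞 K) - 1 ∈ 𝔑) ∧
          b i = fun w : InfinitePlace K => Real.log (w (((ε : 𝓞 K) : K)))

/-- **LEAF RAY-LOG**: the ray generator is `Z (c, …, c)` with `c = log t₀ ≠ 0`
(`t₀ ^ (2 [K:ℚ]) = 2`). -/
def RayLogC : Prop :=
  ∀ Z : (InfinitePlace K → ℝ) → G K, IsPosFamily40 Z → ∀ r : G K, T5.IsRayGen r →
    ∃ c : ℝ, c ≠ 0 ∧ Z (fun _ => c) = r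

/-- **LEAF UNIT-PERIOD**: invariance of the automorphic functions under the absolute values of
the units `≡ 1 mod 𝔑`. -/
def UnitPeriodC : Prop :=
  ∀ Z : (InfinitePlace K → ℝ) → G K, IsPosFamily40 Z →
  ∀ (𝔑 : Ideal (𝓞 K)) (r : G K) (ψ : G K → ℂ), T5.IsAutomorphicFn 𝔑 T5.trivType r ψ →
  ∀ ε : (𝓞 K)ˣ, ((ε : 𝓞 K) - 1 ∈ 𝔑) →
  ∀ g : G K, ψ (g * Z (fun w : InfinitePlace K => Real.log (w (((ε : 𝓞 K) : K))))) = ψ g

end Props

/-! ## 3. The tops -/

section Tops

variable {K : Type} [Field K] [NumberField K]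

/-- **THE TOP of ARCH-PROJ.** -/
theorem archProjC_of40 (hT1 : T1.T1Out K) (hTI : TranslInnerC K) (hPF : PeriodFamilyC K)
    (hAC : AvgCuspC K) (hAI : AvgInvC K) (hAO : AvgOrthC K) : ArchProjC K := by
  intro μ F r hFr hr 𝔑 h𝔑 ψ hψ
  obtain ⟨Y, hY⟩ := hPF 𝔑 h𝔑 r hr
  exact ⟨archAvg40 Y ψ, hAC hT1 𝔑 r Y hY ψ hψ, hAI 𝔑 r Y hY ψ hψ,
    fun χ hχ hχinv => hAO hT1 hTI hAC μ F r hFr hr 𝔑 Y hY ψ hψ χ hχ hχinv⟩

/-- **THE TOP of AVG-CUSP.** -/
theorem avgCuspC_of40 (hC : AvgContC K) (hA : AvgAutC K) (hV : AvgCuspidalC K) :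
    AvgCuspC K := by
  intro hT1 𝔑 r Y hY ψ hψ
  obtain ⟨hb, ha⟩ := hA 𝔑 r Y hY ψ hψ
  exact ⟨hC hT1 Y hY.cont ψ hψ.cont hψ.bdd, hb, ha, hV hT1 𝔑 r Y hY ψ hψ⟩

/-- The periods of an automorphic function along a positive family form an additive
subgroup. -/
theorem period_subgroup40 {Z : (InfinitePlace K → ℝ) → G K} (hZ : IsPosFamily40 Z)
    (ψ : G K → ℂ) :
    ∃ S : AddSubgroup (InfinitePlace K → ℝ),
      ∀ t : InfinitePlace K → ℝ, t ∈ S ↔ ∀ g : G K, ψ (g * Z t) = ψ g := by
  have h0 : Z 0 = 1 := by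
    have := hZ.mul 0 0
    rw [add_zero] at this
    exact (mul_eq_left (a := Z 0) (b := Z 0)).1 this.symm
  refine ⟨{ carrier := {t | ∀ g : G K, ψ (g * Z t) = ψ g}
            add_mem' := ?_
            zero_mem' := ?_
            neg_mem' := ?_ }, fun t => Iff.rfl⟩
  · intro s t hs ht g
    rw [hZ.mul, ← mul_assoc, ht, hs]
  · intro g
    rw [h0, mul_one]
  · intro t ht g
    have := ht (g * Z (-t))
    rw [mul_assoc, ← hZ.mul, neg_add_cancel, h0, mul_one] at this
    exact this.symm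

/-- **THE TOP of PERIOD-FAMILY.** -/
theorem periodFamilyC_of40 (hPF : PosFamilyC K) (hPS : PosScalarC K) (hUP : UnitPeriodsC K)
    (hRL : RayLogC K) (hU : UnitPeriodC K) : PeriodFamilyC K := by
  intro 𝔑 h𝔑 r hr
  obtain ⟨Z, hZ⟩ := hPF
  obtain ⟨hsurj, hinv⟩ := hPS Z hZ
  obtain ⟨c, hc, hcr⟩ := hRL Z hZ r hr
  obtain ⟨b, hb, hbper⟩ := hUP 𝔑 h𝔑 c hc
  -- the linear map of the family `b`
  set Λ : (InfinitePlace K → ℝ) →ₗ[ℝ] (InfinitePlace K → ℝ) := Fintype.linearCombination ℝ b
    with hΛ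
  have hΛcont : Continuous Λ := LinearMap.continuous_of_finiteDimensional Λ
  have hΛsurj : Function.Surjective Λ := by
    rw [← LinearMap.range_eq_top, hΛ, Fintype.range_linearCombination]
    exact hb.span_eq_top_of_card_eq_finrank' (Module.finrank_fintype_fun_eq_card ℝ).symm
  refine ⟨fun t => Z (Λ t), ⟨hZ.cont.comp hΛcont, fun s t => ?_, fun t g => hZ.central _ g,
    fun χ hχ t g => hinv χ hχ _ g, fun w z hz => ?_, fun ψ hψ n g => ?_⟩⟩
  · show Z (Λ (s + t)) = Z (Λ s) * Z (Λ t)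
    rw [map_add, hZ.mul]
  · obtain ⟨t', ht'⟩ := hsurj w z hz
    obtain ⟨t, ht⟩ := hΛsurj t'
    exact ⟨t, by rw [ht, ht']⟩
  · obtain ⟨S, hS⟩ := period_subgroup40 hZ ψ
    have hbS : ∀ i, b i ∈ S := by
      intro i
      rw [hS]
      rcases hbper i with h | ⟨ε, hε, h⟩
      · intro g'
        rw [h, hcr]
        exact hψ.ray g'
      · intro g'
        rw [h]
        exact hU Z hZ 𝔑 r ψ hψ ε hε g'
    have hmem : Λ (fun w => (n w : ℝ)) ∈ S := by
      rw [hΛ, Fintype.linearCombination_apply]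
      refine S.sum_mem fun i _ => ?_
      rw [Int.cast_smul_eq_zsmul]
      exact S.zsmul_mem (hbS i) _
    exact (hS _).1 hmem g

/-- **ARCH-PROJ from the ten leaves and the shared tool.** -/
theorem archProjC_of_leaves40 (hT1 : T1.T1Out K) (hTI : TranslInnerC K)
    (hPF : PosFamilyC K) (hPS : PosScalarC K) (hUP : UnitPeriodsC K) (hRL : RayLogC K)
    (hU : UnitPeriodC K) (hC : AvgContC K) (hA : AvgAutC K) (hV : AvgCuspidalC K)
    (hAI : AvgInvC K) (hAO : AvgOrthC K) : ArchProjC K :=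
  archProjC_of40 hT1 hTI (periodFamilyC_of40 hPF hPS hUP hRL hU) (avgCuspC_of40 hC hA hV)
    hAI hAO

end Tops

end Fermat.Agent.LT.T7.H40

end
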