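import Mathlib
import Fermat.Agent.LT.T7.Level2
import Fermat.Agent.LT.T7.H40.ProjSpec
import Fermat.Agent.LT.T7.H893.SupplySpec

/-!
# Row LT, tower T7, node T7.L2.1 `SupplyC`, leaf C3a (row 2110): the adapter

`H893.ProjC K` (the leaf of the cut of helper893, `LT/T7/H893/SupplySpec.lean` c18d8efa) is a
consequence of `H40.ProjC K` (`LT/T7/H40/ProjSpec.lean` ac5b80ed): the frame of `Frame5`, no
use of the divisibility `o j ∣ 𝔫₀`.  OFF-MAIN, additive.
-/

set_option autoImplicit false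

open AutomorphicForm IsDedekindDomain NumberField MeasureTheory

noncomputable section

namespace Fermat.Agent.LT.T7.H40

open Fermat.Agent.LT.H556 Fermat.Agent.LT.H556.A0 Fermat.Agent.LT.T7

/-- **Row 2110 from `H40.ProjC`.** -/
theorem projC893_of40 {K : Type} [Field K] [NumberField K] (h : ProjC K) :
    Fermat.Agent.LT.T7.H893.ProjC K :=
  fun R hR 𝔫₀ 𝔫 h𝔫 hle l o _ ψ hψ => h R.μ R.F R.r hR.frame hR.ray 𝔫 𝔫₀ h𝔫 hle l o ψ hψ

end Fermat.Agent.LT.T7.H40

end
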