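import Mathlib
import Fermat.Agent.LT.T1.Closed
import Fermat.Agent.LT.T7.H40.ProjSpec
import Fermat.Agent.LT.T7.H40.ArchProjSpec
import Fermat.Agent.LT.T7.H40.ProjAdapt
import Fermat.Agent.LT.T7.H128.TranslInner
import Fermat.Agent.LT.T7.H949.FinProj
import Fermat.Agent.LT.T7.H510.PosFamily
import Fermat.Agent.LT.T7.H819.PosScalar
import Fermat.Agent.LT.T7.H919.UnitPeriods
import Fermat.Agent.LT.T7.H846.RayLog
import Fermat.Agent.LT.T7.H175.ArchLeaves
import Fermat.Agent.LT.T7.H944.AvgCont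
import Fermat.Agent.LT.T7.H346.AvgAut
import Fermat.Agent.LT.T7.H312.AvgCuspidal
import Fermat.Agent.LT.T7.H944.AvgInv
import Fermat.Agent.LT.T7.H267.AvgOrth

/-!
# Row LT, tower T7, node T7.L2.1 `SupplyC`, part (C3) = PROJ -- INTEGRATION (helper40)

OFF-MAIN.  The deliveries of the leaves of `ProjSpec.lean` / `ArchProjSpec.lean`, vendored
byte-identical, plugged into the proved tops.

| leaf | row | theorem | seat |
|---|---|---|---|
| `TranslInnerC` | 2105 | `H128.translInnerC128` | helper128 |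
| `FinProjC` | 2104 | `H949.finProjC949` | helper949 |
| `PosFamilyC` | 2166 | `H510.posFamilyC_h510` | helper510 |
| `PosScalarC` | 2167 | `H819.posScalarC819` | helper819 |
| `UnitPeriodsC` | 2168 | `H919.unitPeriodsC919` | helper919 |
| `RayLogC` | 2169 | `H40.H846.rayLogC846` | helper846 |
| `UnitPeriodC` | 2170 | `H175.unitPeriodC175` | helper175 |
| `AvgContC` | 2171 | `H944.avgContC944` | helper944 |
| `AvgAutC` | 2172 | `H346.avgAutC346` | helper346 |
| `AvgCuspidalC` | 2173 | `H312.avgCuspidalC312` | helper312 |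
| `AvgInvC` | 2174 | `H944.avgInvC944` | helper944 |
| `AvgOrthC` | 2175 | `H40.H267.avgOrthC267` | helper267 |

NOTHING IS OPEN: `projC_closed40 : ProjC K` for every number field `K` (T1 of the closure:
`T1/Closed.lean`, `T1.t1Out`).  Spare deliveries (not used here): `FinProjC` helper277,
`TranslInnerC` helper176 / helper277, `UnitPeriodsC` helper805 / 842 / 409 / 846 / 972 / 175,
`PosFamilyC` helper947 / 175, `AvgInvC` helper312, `AvgAutC` helper944, period family helper175.
-/

set_option autoImplicit false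

open AutomorphicForm IsDedekindDomain NumberField MeasureTheory

noncomputable section

namespace Fermat.Agent.LT.T7.H40

open Fermat.Agent.LT.H556 Fermat.Agent.LT.H556.A0 Fermat.Agent.LT.T7

variable (K : Type) [Field K] [NumberField K]

/-- `TranslInnerC`, closed (helper128). -/
theorem translInnerC_closed40 : TranslInnerC K :=
  Fermat.Agent.LT.T7.H128.translInnerC128 K

/-- `FinProjC`, closed (helper949). -/
theorem finProjC_closed40 : FinProjC K :=
  Fermat.Agent.LT.T7.H949.finProjC949 K (translInnerC_closed40 K) (T1.t1Out K)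

/-- `AvgCuspC`, closed (helper944, helper346, helper312). -/
theorem avgCuspC_closed40 : AvgCuspC K :=
  avgCuspC_of40 (Fermat.Agent.LT.T7.H944.avgContC944 K) (Fermat.Agent.LT.T7.H346.avgAutC346 K)
    (Fermat.Agent.LT.T7.H312.avgCuspidalC312 K)

/-- `PeriodFamilyC`, closed (helper510, helper819, helper919, helper846, helper175). -/
theorem periodFamilyC_closed40 : PeriodFamilyC K :=
  periodFamilyC_of40 (Fermat.Agent.LT.T7.H510.posFamilyC_h510 K)
    (Fermat.Agent.LT.T7.H819.posScalarC819 K) (Fermat.Agent.LT.T7.H919.unitPeriodsC919 K)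
    (Fermat.Agent.LT.T7.H40.H846.rayLogC846 K) (Fermat.Agent.LT.T7.H175.unitPeriodC175 K)

/-- **`ArchProjC`, closed.** -/
theorem archProjC_closed40 : ArchProjC K :=
  archProjC_of40 (T1.t1Out K) (translInnerC_closed40 K) (periodFamilyC_closed40 K)
    (avgCuspC_closed40 K) (Fermat.Agent.LT.T7.H944.avgInvC944 K)
    (Fermat.Agent.LT.T7.H40.H267.avgOrthC267 K)

/-- **`ProjC`, closed: the orthogonal projection on the invariant cusp functions, for every
number field.** -/
theorem projC_closed40 : ProjC K :=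
  projC_of40 (archProjC_closed40 K) (finProjC_closed40 K)

/-- **Row 2110 (`H893.ProjC`, leaf C3a of the cut of `SupplyC`), closed.** -/
theorem projC893_closed40 : Fermat.Agent.LT.T7.H893.ProjC K :=
  projC893_of40 (projC_closed40 K)

section Fields

variable {K}
variable {K' : Type} [Field K'] [NumberField K'] [Algebra K K']

/-- **The field `proj_up` of `T7.IsL2Data`** (for one bad element `g`), closed. -/
theorem proj_up_closed40 (Dt : L2Data K K') (ℓ : ℕ) (g : G K')
    (hcomp : IsCompData (Dt.comp g)) (hlev : Dt.𝔑 g ≤ Dt.𝔑₀) :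
    ∀ ψ : G K' → ℂ, T5.IsCuspFn (Dt.𝔑 g) T5.trivType Dt.R'.r ψ →
    ∃ ψ₁ : G K' → ℂ, IsWFn Dt.𝔑₀ Dt.R'.r ℓ Dt.o ψ₁ ∧
      ∀ χ : G K' → ℂ, IsWFn Dt.𝔑₀ Dt.R'.r ℓ Dt.o χ →
        T5.innerD Dt.R'.μ Dt.R'.F (fun x => ψ x - ψ₁ x) χ = 0 :=
  proj_up40 (projC_closed40 K') Dt ℓ g hcomp hlev

/-- **The field `proj_down` of `T7.IsL2Data`** (for one bad element `g`), closed. -/
theorem proj_down_closed40 (Dt : L2Data K K') (g : G K')
    (hcomp : IsCompData (Dt.comp g)) :
    ∀ ψ : G K → ℂ, T5.IsCuspFn (Dt.𝔫 g) T5.trivType Dt.R.r ψ →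
    ∃ ψ₁ : G K → ℂ, IsWFn (Dt.𝔫 g) Dt.R.r 1 (fun _ => Dt.u) ψ₁ ∧
      ∀ χ : G K → ℂ, IsWFn (Dt.𝔫 g) Dt.R.r 1 (fun _ => Dt.u) χ →
        T5.innerD Dt.R.μ Dt.R.F (fun x => ψ x - ψ₁ x) χ = 0 :=
  proj_down40 (projC_closed40 K) Dt g hcomp

end Fields

end Fermat.Agent.LT.T7.H40

end
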