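import Mathlib
import Fermat.Agent.LT.T7.H40.ProjClosed

/-!
# Row LT, tower T7: the orthogonal projection on the invariant cusp functions for an ARBITRARY
# `K_∞`-type `τ` (helper40)

OFF-MAIN, additive.  `ProjC K` (`ProjSpec.lean`, closed in `ProjClosed.lean`) is the case
`τ = T5.trivType`.  The type only enters in the equivariance `ψ (g k) = τ k · ψ g` under the
compact groups at infinity and in the PERIODS of the automorphic functions of type `τ`
(`PeriodFamilyTC K τ`: for the trivial type Dirichlet's unit theorem, `periodFamilyC_closed40`;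
over `ℚ` every type has the period family of the ray generator, `periodFamilyTC_rat40`).

    projTC_of_period40 : PeriodFamilyTC K τ → ProjTC K τ                       (PROVED)
    projTC_rat40 (τ) : ProjTC ℚ τ                                               (PROVED)

The proofs are the proofs of the leaves of `ArchProjSpec.lean` / `ProjSpec.lean` (helper346
`AvgAut`, helper312 `AvgCuspidal`, helper944 `AvgCont` / `AvgInv`, helper267 `AvgOrth`,
helper949 `FinProj`, helper128 `TranslInner`), whose abstract lemmas are used as they are; only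
the final assemblies are repeated for the type `τ`.
-/

set_option autoImplicit false
set_option linter.style.haveILetI false

open AutomorphicForm IsDedekindDomain NumberField MeasureTheory
open scoped ComplexConjugate

noncomputable section

namespace Fermat.Agent.LT.T7.H40

open Fermat.Agent.LT.H556 Fermat.Agent.LT.H556.A0 Fermat.Agent.LT.T7

attribute [local instance] Fermat.Agent.LT.T5.instMeasurableSpaceG

/-! ## 1. Vocabulary and Props -/

section Defs

variable {K : Type} [Field K] [NumberField K]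

/-- A period family for the level `𝔑`, the type `τ` and the ray generator `r`
(`IsPeriodFamily40` is the case of the trivial type). -/
structure IsPeriodFamilyT40 (𝔑 : Ideal (𝓞 K)) (τ : G K → ℂ) (r : G K)
    (Y : (InfinitePlace K → ℝ) → G K) : Prop where
  cont : Continuous Y
  mul : ∀ s t : InfinitePlace K → ℝ, Y (s + t) = Y s * Y t
  central : ∀ (t : InfinitePlace K → ℝ) (g : G K), Y t * g = g * Y t
  pos_inv : ∀ χ : G K → ℂ, IsPosInv χ → ∀ (t : InfinitePlace K → ℝ) (g : G K),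
    χ (g * Y t) = χ g
  surj : ∀ (w : InfinitePlace K) (z : G K), IsArchPosScalar w z →
    ∃ t : InfinitePlace K → ℝ, z = Y t
  period : ∀ ψ : G K → ℂ, T5.IsAutomorphicFn 𝔑 τ r ψ →
    ∀ (n : InfinitePlace K → ℤ) (g : G K), ψ (g * Y (fun w => (n w : ℝ))) = ψ g

end Defs

section Props

variable (K : Type) [Field K] [NumberField K] (τ : G K → ℂ)

/-- A period family exists for every level `𝔑 ≠ 0` and every ray generator. -/
def PeriodFamilyTC : Prop :=
  ∀ 𝔑 : Ideal (𝓞 K), 𝔑 ≠ ⊥ → ∀ r : G K, T5.IsRayGen r →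
    ∃ Y : (InfinitePlace K → ℝ) → G K, IsPeriodFamilyT40 𝔑 τ r Y

/-- The projection on the cusp functions of type `τ` invariant under the positive scalars. -/
def ArchProjTC : Prop :=
  ∀ (μ : Measure (G K)) (F : Set (G K)) (r : G K), T5.IsFrame μ F → T5.IsRayGen r →
  ∀ 𝔑 : Ideal (𝓞 K), 𝔑 ≠ ⊥ →
  ∀ ψ : G K → ℂ, T5.IsCuspFn 𝔑 τ r ψ →
    ∃ ψ₂ : G K → ℂ, T5.IsCuspFn 𝔑 τ r ψ₂ ∧ IsPosInv ψ₂ ∧
      ∀ χ : G K → ℂ, T5.IsCuspFn 𝔑 τ r χ → IsPosInv χ →
        T5.innerD μ F (fun x => ψ x - ψ₂ x) χ = 0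

/-- The projection on the cusp functions of type `τ` and level `𝔑₀` invariant under the
Iwahori subgroups at the `o j`. -/
def FinProjTC : Prop :=
  ∀ (μ : Measure (G K)) (F : Set (G K)) (r : G K), T5.IsFrame μ F → T5.IsRayGen r →
  ∀ 𝔑 𝔑₀ : Ideal (𝓞 K), 𝔑 ≠ ⊥ → 𝔑 ≤ 𝔑₀ →
  ∀ (l : ℕ) (o : ℕ → HeightOneSpectrum (𝓞 K)) (ψ : G K → ℂ),
    T5.IsCuspFn 𝔑 τ r ψ →
    ∃ ψ₁ : G K → ℂ, T5.IsCuspFn 𝔑₀ τ r ψ₁ ∧ IsIwInv l o ψ₁ ∧
      (IsPosInv ψ → IsPosInv ψ₁) ∧
      ∀ χ : G K → ℂ, T5.IsCuspFn 𝔑₀ τ r χ → IsIwInv l o χ →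
        T5.innerD μ F (fun x => ψ x - ψ₁ x) χ = 0

/-- **The orthogonal projection on the invariant cusp functions of type `τ`.** -/
def ProjTC : Prop :=
  ∀ (μ : Measure (G K)) (F : Set (G K)) (r : G K), T5.IsFrame μ F → T5.IsRayGen r →
  ∀ 𝔑 𝔑₀ : Ideal (𝓞 K), 𝔑 ≠ ⊥ → 𝔑 ≤ 𝔑₀ →
  ∀ (l : ℕ) (o : ℕ → HeightOneSpectrum (𝓞 K)) (ψ : G K → ℂ),
    T5.IsCuspFn 𝔑 τ r ψ →
    ∃ ψ₁ : G K → ℂ, (T5.IsCuspFn 𝔑₀ τ r ψ₁ ∧ IsPosInv ψ₁ ∧ IsIwInv l o ψ₁) ∧
      ∀ χ : G K → ℂ, T5.IsCuspFn 𝔑₀ τ r χ → IsPosInv χ → IsIwInv l o χ →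
        T5.innerD μ F (fun x => ψ x - ψ₁ x) χ = 0

end Props

/-! ## 2. The mean over the torus -/

section Arch

variable {K : Type} [Field K] [NumberField K] {τ : G K → ℂ}

/-- The mean of a cusp function of type `τ` is a cusp function of type `τ`
(helper944, helper346, helper312). -/
theorem avgCuspT40 {𝔑 : Ideal (𝓞 K)} {r : G K} {Y : (InfinitePlace K → ℝ) → G K}
    (hY : IsPeriodFamilyT40 𝔑 τ r Y) {ψ : G K → ℂ} (hψ : T5.IsCuspFn 𝔑 τ r ψ) :
    T5.IsCuspFn 𝔑 τ r (archAvg40 Y ψ) := by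
  have hT := T1.t1Out K
  obtain ⟨C, hC⟩ := hψ.bdd
  refine ⟨Fermat.Agent.LT.T7.H944.avgContC944 K hT Y hY.cont ψ hψ.cont hψ.bdd,
    ⟨C, fun g => ?_⟩, ⟨fun γ g => ?_, fun u hu g => ?_, fun w k hk g => ?_, fun g => ?_⟩, ?_⟩
  · have h := norm_setIntegral_le_of_norm_le_const (μ := volume) (s := cube40 K)
      (f := fun t => ψ (g * Y t)) (C := C)
      (by rw [Fermat.Agent.LT.T7.H346.volume_cube346]; exact ENNReal.one_lt_top)
      (fun t _ => hC _)
    have h1 : (volume : Measure (InfinitePlace K → ℝ)).real (cube40 K) = 1 := by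
      rw [Measure.real, Fermat.Agent.LT.T7.H346.volume_cube346]
      simp
    rw [h1, mul_one] at h
    exact h
  · refine Fermat.Agent.LT.T7.H346.archAvg_congr346 Y ψ g _ fun t => ?_
    rw [mul_assoc]
    exact hψ.aut.left_inv γ (g * Y t)
  · refine Fermat.Agent.LT.T7.H346.archAvg_congr346 Y ψ g _ fun t => ?_
    rw [mul_assoc, ← hY.central t u, ← mul_assoc]
    exact hψ.aut.level_inv u hu (g * Y t)
  · show (∫ t in cube40 K, ψ (g * k * Y t)) = τ k * ∫ t in cube40 K, ψ (g * Y t)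
    rw [← integral_const_mul]
    refine integral_congr_ae (Filter.Eventually.of_forall fun t => ?_)
    show ψ (g * k * Y t) = τ k * ψ (g * Y t)
    rw [mul_assoc, ← hY.central t k, ← mul_assoc, hψ.aut.arch_compact w k hk (g * Y t)]
  · refine Fermat.Agent.LT.T7.H346.archAvg_congr346 Y ψ g _ fun t => ?_
    rw [mul_assoc, ← hY.central t r, ← mul_assoc]
    exact hψ.aut.ray (g * Y t)
  · -- cuspidality (helper312)
    letI : MeasurableSpace (Adl K) := borel (Adl K)
    haveI : BorelSpace (Adl K) := ⟨rfl⟩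
    obtain ⟨⟨_, _, hsc⟩, _, _, _⟩ := hT.locComp
    haveI := hsc
    intro μ hμ D hD n hn g
    haveI := hμ
    obtain ⟨D0, -, hD0, -, -, hD0fin⟩ := hT.addFundDom μ hμ
    haveI : Countable K := Fermat.Agent.LT.T7.H312.countable_numberField312 K
    haveI : Countable ↥((algebraMap K (Adl K)).toAddMonoidHom.range) :=
      (Set.countable_range (algebraMap K (Adl K))).to_subtype
    have hDfin : μ D < ⊤ := by
      have h := hD.measure_eq hD0
      rw [h]
      exact hD0fin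
    haveI : IsFiniteMeasure (μ.restrict D) :=
      ⟨by rw [Measure.restrict_apply_univ]; exact hDfin⟩
    haveI : IsFiniteMeasure ((volume : Measure (InfinitePlace K → ℝ)).restrict (cube40 K)) :=
      ⟨by rw [Measure.restrict_apply_univ, Fermat.Agent.LT.T7.H312.volume_cube312]
          exact ENNReal.one_lt_top⟩
    have hcont : Continuous
        (fun p : Adl K × (InfinitePlace K → ℝ) => ψ (n p.1 * g * Y p.2)) :=
      hψ.cont.comp
        ((((Fermat.Agent.LT.T7.H312.continuous_unip312 n hn).comp continuous_fst).mul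
          continuous_const).mul (hY.cont.comp continuous_snd))
    have hint : Integrable (Function.uncurry fun (x : Adl K) (t : InfinitePlace K → ℝ) =>
        ψ (n x * g * Y t)) ((μ.restrict D).prod (volume.restrict (cube40 K))) :=
      Integrable.of_bound hcont.aestronglyMeasurable C
        (Filter.Eventually.of_forall fun p => hC _)
    show ∫ x in D, archAvg40 Y ψ (n x * g) ∂μ = 0
    have h1 : (fun x : Adl K => archAvg40 Y ψ (n x * g))
        = fun x : Adl K => ∫ t in cube40 K, ψ (n x * g * Y t) := rfl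
    rw [h1, integral_integral_swap hint]
    have h2 : ∀ t : InfinitePlace K → ℝ, ∫ x in D, ψ (n x * g * Y t) ∂μ = 0 := by
      intro t
      have h := hψ.cuspidal μ hμ D hD n hn (g * Y t)
      simpa only [mul_assoc] using h
    simp only [h2, integral_zero]

/-- The mean is invariant under the positive scalars (helper944). -/
theorem avgInvT40 {𝔑 : Ideal (𝓞 K)} {r : G K} {Y : (InfinitePlace K → ℝ) → G K}
    (hY : IsPeriodFamilyT40 𝔑 τ r Y) {ψ : G K → ℂ} (hψ : T5.IsCuspFn 𝔑 τ r ψ) :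
    IsPosInv (archAvg40 Y ψ) := by
  intro w z hz g
  obtain ⟨t₀, rfl⟩ := hY.surj w z hz
  have hF : ∀ (s : InfinitePlace K → ℝ) (n : InfinitePlace K → ℤ),
      ψ (g * Y (s + fun i => (n i : ℝ))) = ψ (g * Y s) := by
    intro s n
    rw [hY.mul, ← mul_assoc]
    exact hY.period ψ hψ.aut n (g * Y s)
  have key := Fermat.Agent.LT.T7.H944.integral_cube_periodic944 (InfinitePlace K)
    (fun s => ψ (g * Y s)) hF t₀
  show (∫ t in cube40 K, ψ (g * Y t₀ * Y t)) = ∫ t in cube40 K, ψ (g * Y t)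
  rw [cube40, ← key]
  refine integral_congr_ae (Filter.Eventually.of_forall fun t => ?_)
  show ψ (g * Y t₀ * Y t) = ψ (g * Y (t₀ + t))
  rw [hY.mul, mul_assoc]

/-- `ψ - mean ψ` is orthogonal to the invariant cusp functions (helper267). -/
theorem avgOrthT40 {μ : Measure (G K)} {F : Set (G K)} {r : G K} (hFr : T5.IsFrame μ F)
    (hr : T5.IsRayGen r) {𝔑 : Ideal (𝓞 K)} {Y : (InfinitePlace K → ℝ) → G K}
    (hY : IsPeriodFamilyT40 𝔑 τ r Y) {ψ : G K → ℂ} (hψ : T5.IsCuspFn 𝔑 τ r ψ)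
    {χ : G K → ℂ} (hχ : T5.IsCuspFn 𝔑 τ r χ) (hχinv : IsPosInv χ) :
    T5.innerD μ F (fun x => ψ x - archAvg40 Y ψ x) χ = 0 := by
  have hTI := translInnerC_closed40 K
  have hB : BorelSpace (G K) := ⟨rfl⟩
  have hfinF : IsFiniteMeasure (μ.restrict F) :=
    ⟨by rw [Measure.restrict_apply_univ]; exact hFr.finite⟩
  have hfinC : IsFiniteMeasure ((volume : Measure (InfinitePlace K → ℝ)).restrict (cube40 K)) :=
    ⟨by rw [Measure.restrict_apply_univ, Fermat.Agent.LT.T7.H40.H267.volume_cube267]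
        exact ENNReal.one_lt_top⟩
  obtain ⟨Cψ, hCψ⟩ := hψ.bdd
  obtain ⟨Cχ, hCχ⟩ := hχ.bdd
  have hCψ0 : 0 ≤ Cψ := (norm_nonneg _).trans (hCψ 1)
  have hA := avgCuspT40 hY hψ
  obtain ⟨CA, hCA⟩ := hA.bdd
  set Ψ : G K → ℂ := fun x => ψ x * conj (χ x) with hΨ
  have hΨcont : Continuous Ψ := hψ.cont.mul (Complex.continuous_conj.comp hχ.cont)
  have hΨbdd : ∀ g : G K, ‖Ψ g‖ ≤ Cψ * Cχ := by
    intro g
    rw [hΨ]
    simp only
    rw [norm_mul, RCLike.norm_conj]
    exact mul_le_mul (hCψ g) (hCχ g) (norm_nonneg _) hCψ0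
  have hΨleft : ∀ (γ : GL (Fin 2) K) (g : G K), Ψ (T5.ratG γ * g) = Ψ g := by
    intro γ g
    rw [hΨ]
    simp only
    rw [hψ.aut.left_inv, hχ.aut.left_inv]
  have hΨray : ∀ g : G K, Ψ (g * r) = Ψ g := by
    intro g
    rw [hΨ]
    simp only
    rw [hψ.aut.ray, hχ.aut.ray]
  have htransl : ∀ t : InfinitePlace K → ℝ,
      ∫ x in F, ψ (x * Y t) * conj (χ x) ∂μ = ∫ x in F, Ψ x ∂μ := by
    intro t
    rw [← hTI μ F r hFr hr Ψ hΨcont ⟨_, hΨbdd⟩ hΨleft hΨray (Y t)]
    refine integral_congr_ae (Filter.Eventually.of_forall fun x => ?_)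
    rw [hΨ]
    simp only
    rw [hY.pos_inv χ hχinv t x]
  set f : G K → (InfinitePlace K → ℝ) → ℂ := fun x t => ψ (x * Y t) * conj (χ x) with hf
  have hfcont : Continuous (Function.uncurry f) := by
    rw [hf]
    have h1 : Continuous (fun p : G K × (InfinitePlace K → ℝ) => p.1 * Y p.2) :=
      continuous_fst.mul (hY.cont.comp continuous_snd)
    exact (hψ.cont.comp h1).mul (Complex.continuous_conj.comp (hχ.cont.comp continuous_fst))
  have hfbdd : ∀ p : G K × (InfinitePlace K → ℝ), ‖Function.uncurry f p‖ ≤ Cψ * Cχ := by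
    rintro ⟨x, t⟩
    show ‖ψ (x * Y t) * conj (χ x)‖ ≤ Cψ * Cχ
    rw [norm_mul, RCLike.norm_conj]
    exact mul_le_mul (hCψ _) (hCχ x) (norm_nonneg _) hCψ0
  have hfint : Integrable (Function.uncurry f)
      ((μ.restrict F).prod ((volume : Measure (InfinitePlace K → ℝ)).restrict (cube40 K))) :=
    Fermat.Agent.LT.T7.H40.H267.integrable_of_cont_bdd267 _ _ hfcont _ hfbdd
  have hint1 : Integrable Ψ (μ.restrict F) :=
    Fermat.Agent.LT.T7.H40.H267.integrable_of_cont_bdd267 _ _ hΨcont _ hΨbdd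
  have hint2 : Integrable (fun x => archAvg40 Y ψ x * conj (χ x)) (μ.restrict F) := by
    refine Fermat.Agent.LT.T7.H40.H267.integrable_of_cont_bdd267 _ _
      (hA.cont.mul (Complex.continuous_conj.comp hχ.cont)) (CA * Cχ) fun x => ?_
    rw [norm_mul, RCLike.norm_conj]
    exact mul_le_mul (hCA x) (hCχ x) (norm_nonneg _) ((norm_nonneg _).trans (hCA 1))
  have hmean : ∫ x in F, archAvg40 Y ψ x * conj (χ x) ∂μ = ∫ x in F, Ψ x ∂μ := by
    have e1 : ∀ x : G K, archAvg40 Y ψ x * conj (χ x) = ∫ t in cube40 K, f x t := by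
      intro x
      rw [hf]
      simp only
      unfold archAvg40
      rw [integral_mul_const]
    simp_rw [e1]
    rw [integral_integral_swap hfint]
    simp_rw [hf, htransl]
    rw [setIntegral_const]
    simp [Measure.real, Fermat.Agent.LT.T7.H40.H267.volume_cube267]
  unfold T5.innerD
  have e2 : ∀ x : G K, (ψ x - archAvg40 Y ψ x) * conj (χ x)
      = Ψ x - archAvg40 Y ψ x * conj (χ x) := by
    intro x
    rw [hΨ]
    ring
  simp_rw [e2]
  rw [integral_sub hint1 hint2, hmean, sub_self]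

/-- **The projection on the functions invariant under the positive scalars, type `τ`.** -/
theorem archProjTC_of_period40 (hP : PeriodFamilyTC K τ) : ArchProjTC K τ := by
  intro μ F r hFr hr 𝔑 h𝔑 ψ hψ
  obtain ⟨Y, hY⟩ := hP 𝔑 h𝔑 r hr
  exact ⟨archAvg40 Y ψ, avgCuspT40 hY hψ, avgInvT40 hY hψ,
    fun χ hχ hχinv => avgOrthT40 hFr hr hY hψ hχ hχinv⟩

end Arch

/-! ## 3. The mean over the finite group -/

section Fin

open Fermat.Agent.LT.T7.H949

variable (K : Type) [Field K] [NumberField K] (τ : G K → ℂ)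

/-- **The projection on the functions invariant under the Iwahori subgroups, type `τ`**
(helper949). -/
theorem finProjTC40 : FinProjTC K τ := by
  have hTI := translInnerC_closed40 K
  have hT := T1.t1Out K
  intro μ F r hFr hr 𝔑 𝔑₀ h𝔑 hle l o ψ hψ
  set 𝒦 : Subgroup (G K) := KK949 𝔑₀ l o with h𝒦
  have hK0 : 𝒦 ≤ K0949 K := KK_le_K0949 𝔑₀ l o
  have hfinq : Finite (𝒦 ⧸ (U949 𝔑).subgroupOf 𝒦) := finite_quot949 𝔑 h𝔑 𝒦 hK0
  letI : Fintype (𝒦 ⧸ (U949 𝔑).subgroupOf 𝒦) := Fintype.ofFinite _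
  have hU0 : U949 𝔑₀ ≤ 𝒦 := le_sup_left
  have hIw : iwSet949 l o ⊆ (𝒦 : Set (G K)) := fun h hh =>
    (le_sup_right : Subgroup.closure (iwSet949 l o) ≤ 𝒦) (Subgroup.subset_closure hh)
  have hψU : U949 𝔑 ≤ stab949 ψ := fun u hu => hψ.aut.level_inv u hu
  have htriv : ∀ h ∈ 𝒦, ∀ w : InfinitePlace K, TrivAtInf w h := fun h hh => (hK0 hh).1
  set ψ₁ : G K → ℂ := avg949 𝔑 𝒦 ψ with hψ₁
  have hstab : 𝒦 ≤ stab949 ψ₁ := KK_le_stab_avg949 𝔑 𝒦 hψU
  have hcomm : ∀ z : G K, (∀ v : HeightOneSpectrum (𝓞 K), TrivAtFin v z) →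
      ∀ h ∈ 𝒦, h * z = z * h := fun z hz h hh => commute_of_triv949 (htriv h hh) hz
  have hcusp₁ : T5.IsCuspFn 𝔑₀ τ r ψ₁ := by
    refine ⟨continuous_avg949 𝔑 𝒦 hψ.cont, bdd_avg949 𝔑 𝒦 hψ.bdd, ⟨?_, ?_, ?_, ?_⟩, ?_⟩
    · intro γ g
      show avg949 𝔑 𝒦 ψ _ = avg949 𝔑 𝒦 ψ _
      unfold avg949 sumT949
      congr 1
      refine Finset.sum_congr rfl fun q _ => ?_
      rw [mul_assoc, hψ.aut.left_inv]
    · intro u hu g
      exact hstab (hU0 hu) g
    · intro w k hk g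
      have hsum : ∑ q, ψ (g * k * rep949 𝔑 𝒦 q) = τ k * ∑ q, ψ (g * rep949 𝔑 𝒦 q) := by
        rw [Finset.mul_sum]
        refine Finset.sum_congr rfl fun q _ => ?_
        rw [mul_assoc, ← hcomm k hk.1.2 _ (rep_mem949 𝔑 𝒦 q), ← mul_assoc,
          hψ.aut.arch_compact w k hk]
      show avg949 𝔑 𝒦 ψ (g * k) = τ k * avg949 𝔑 𝒦 ψ g
      unfold avg949 sumT949
      rw [hsum]
      ring
    · intro g
      exact avg_comm949 𝔑 𝒦 (hcomm r hr.1) hψ.aut.ray g
    · intro μ' hμ' D hD n hn g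
      have hint := integrableOn_unip949 hT hψ.cont hψ.bdd μ' hμ' D hD n hn
      have e : (fun x => ψ₁ (n x * g))
          = fun x => ((Fintype.card (𝒦 ⧸ (U949 𝔑).subgroupOf 𝒦) : ℂ))⁻¹
              * ∑ q, ψ (n x * (g * rep949 𝔑 𝒦 q)) := by
        funext x
        show avg949 𝔑 𝒦 ψ _ = _
        unfold avg949 sumT949
        congr 1
        refine Finset.sum_congr rfl fun q _ => ?_
        rw [mul_assoc]
      rw [e, integral_const_mul, integral_finsetSum _ (fun q _ => hint _)]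
      rw [Finset.sum_eq_zero (fun q _ => hψ.cuspidal μ' hμ' D hD n hn _), mul_zero]
  refine ⟨ψ₁, hcusp₁, ?_, ?_, ?_⟩
  · intro h ha hb hc x
    exact hstab (hIw ⟨ha, hb, hc⟩) x
  · intro hpos w z hz g
    exact avg_comm949 𝔑 𝒦 (hcomm z hz.1.2) (hpos w z hz) g
  · intro χ hχ hχiw
    have hχstab : 𝒦 ≤ stab949 χ := KK_le_stab949 hχ.aut.level_inv hχiw
    have : BorelSpace (G K) := ⟨rfl⟩
    have : IsFiniteMeasure (μ.restrict F) := ⟨by simpa using hFr.finite⟩
    obtain ⟨Cψ, hCψ⟩ := hψ.bdd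
    obtain ⟨Cχ, hCχ⟩ := hχ.bdd
    have hCψ0 : 0 ≤ Cψ := (norm_nonneg _).trans (hCψ 1)
    have hint : ∀ h : G K, Integrable (fun x => ψ (x * h) * conj (χ x)) (μ.restrict F) := by
      intro h
      refine Integrable.of_bound (C := Cψ * Cχ) ?_ (Filter.Eventually.of_forall fun x => ?_)
      · exact ((hψ.cont.comp (continuous_mul_const h)).mul
          (Complex.continuous_conj.comp hχ.cont)).aestronglyMeasurable
      · rw [norm_mul, RCLike.norm_conj]
        exact mul_le_mul (hCψ _) (hCχ _) (norm_nonneg _) hCψ0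
    have htr : ∀ q : 𝒦 ⧸ (U949 𝔑).subgroupOf 𝒦,
        ∫ x in F, ψ (x * rep949 𝔑 𝒦 q) * conj (χ x) ∂μ = ∫ x in F, ψ x * conj (χ x) ∂μ := by
      intro q
      have h1 := hTI μ F r hFr hr (fun x => ψ x * conj (χ x))
        (hψ.cont.mul (Complex.continuous_conj.comp hχ.cont))
        ⟨Cψ * Cχ, fun g => by
          rw [norm_mul, RCLike.norm_conj]
          exact mul_le_mul (hCψ _) (hCχ _) (norm_nonneg _) hCψ0⟩
        (fun γ g => by
          show ψ _ * conj (χ _) = _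
          rw [hψ.aut.left_inv, hχ.aut.left_inv])
        (fun g => by
          show ψ _ * conj (χ _) = _
          rw [hψ.aut.ray, hχ.aut.ray])
        (rep949 𝔑 𝒦 q)
      rw [← h1]
      refine integral_congr_ae (Filter.Eventually.of_forall fun x => ?_)
      show ψ _ * conj (χ x) = ψ _ * conj (χ _)
      rw [hχstab (rep_mem949 𝔑 𝒦 q) x]
    have e1 : ∫ x in F, ψ₁ x * conj (χ x) ∂μ = ∫ x in F, ψ x * conj (χ x) ∂μ := by
      have e : (fun x => ψ₁ x * conj (χ x))
          = fun x => ((Fintype.card (𝒦 ⧸ (U949 𝔑).subgroupOf 𝒦) : ℂ))⁻¹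
              * ∑ q, ψ (x * rep949 𝔑 𝒦 q) * conj (χ x) := by
        funext x
        show avg949 𝔑 𝒦 ψ _ * _ = _
        unfold avg949 sumT949
        rw [mul_assoc, Finset.sum_mul]
      rw [e, integral_const_mul, integral_finsetSum _ (fun q _ => hint _),
        Finset.sum_congr rfl (fun q _ => htr q), Finset.sum_const, Finset.card_univ,
        nsmul_eq_mul, ← mul_assoc, inv_mul_cancel₀ (card_ne_zero949 𝔑 𝒦), one_mul]
    unfold T5.innerD
    have e2 : (fun x => (ψ x - ψ₁ x) * conj (χ x))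
        = fun x => ψ x * conj (χ x) - ψ₁ x * conj (χ x) := by
      funext x
      ring
    have hint1 : Integrable (fun x => ψ x * conj (χ x)) (μ.restrict F) := by
      have := hint 1
      simpa using this
    have hint2 : Integrable (fun x => ψ₁ x * conj (χ x)) (μ.restrict F) := by
      obtain ⟨C₁, hC₁⟩ := hcusp₁.bdd
      have hC₁0 : 0 ≤ C₁ := (norm_nonneg _).trans (hC₁ 1)
      refine Integrable.of_bound (C := C₁ * Cχ) ?_ (Filter.Eventually.of_forall fun x => ?_)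
      · exact (hcusp₁.cont.mul (Complex.continuous_conj.comp hχ.cont)).aestronglyMeasurable
      · rw [norm_mul, RCLike.norm_conj]
        exact mul_le_mul (hC₁ _) (hCχ _) (norm_nonneg _) hC₁0
    rw [e2, integral_sub hint1 hint2, e1, sub_self]

end Fin

/-! ## 4. The tops -/

section Tops

variable {K : Type} [Field K] [NumberField K] {τ : G K → ℂ}

/-- **The top.** -/
theorem projTC_of40 (hA : ArchProjTC K τ) (hF : FinProjTC K τ) : ProjTC K τ := by
  intro μ F r hFr hr 𝔑 𝔑₀ h𝔑 hle l o ψ hψ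
  obtain ⟨ψ₂, hψ₂, hinv₂, horth₂⟩ := hA μ F r hFr hr 𝔑 h𝔑 ψ hψ
  obtain ⟨ψ₁, hψ₁, hiw₁, hpos₁, horth₁⟩ := hF μ F r hFr hr 𝔑 𝔑₀ h𝔑 hle l o ψ₂ hψ₂
  refine ⟨ψ₁, ⟨hψ₁, hpos₁ hinv₂, hiw₁⟩, fun χ hχ hχpos hχiw => ?_⟩
  have e1 := horth₂ χ (isCuspFn_mono40 hle hχ) hχpos
  have e2 := horth₁ χ hχ hχiw
  have : BorelSpace (G K) := ⟨rfl⟩
  have : IsFiniteMeasure (μ.restrict F) := ⟨by simpa using hFr.finite⟩
  unfold T5.innerD at e1 e2 ⊢
  rw [integral_sub_split40 (μ.restrict F) ψ ψ₂ ψ₁ χ hψ.cont.aestronglyMeasurable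
    hψ₂.cont.aestronglyMeasurable hψ₁.cont.aestronglyMeasurable hχ.cont.aestronglyMeasurable
    hψ.bdd hψ₂.bdd hψ₁.bdd hχ.bdd, e1, e2, add_zero]

/-- **The projection for the type `τ` from a period family.** -/
theorem projTC_of_period40 (hP : PeriodFamilyTC K τ) : ProjTC K τ :=
  projTC_of40 (archProjTC_of_period40 hP) (finProjTC40 K τ)

end Tops

/-! ## 5. Period families from the units: a general criterion, and the field `ℚ` -/

section Period

variable {K : Type} [Field K] [NumberField K] {τ : G K → ℂ}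

/-- The period family of the type `τ` from the invariance of the automorphic functions of
type `τ` under the absolute values of the units (the proof of `periodFamilyC_of40`). -/
theorem periodFamilyTC_of40
    (hU : ∀ Z : (InfinitePlace K → ℝ) → G K, IsPosFamily40 Z →
      ∀ (𝔑 : Ideal (𝓞 K)) (r : G K) (ψ : G K → ℂ), T5.IsAutomorphicFn 𝔑 τ r ψ →
      ∀ ε : (𝓞 K)ˣ, ((ε : 𝓞 K) - 1 ∈ 𝔑) →
      ∀ g : G K, ψ (g * Z (fun w : InfinitePlace K => Real.log (w (((ε : 𝓞 K) : K))))) = ψ g) :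
    PeriodFamilyTC K τ := by
  intro 𝔑 h𝔑 r hr
  obtain ⟨Z, hZ⟩ := Fermat.Agent.LT.T7.H510.posFamilyC_h510 K
  obtain ⟨hsurj, hinv⟩ := Fermat.Agent.LT.T7.H819.posScalarC819 K Z hZ
  obtain ⟨c, hc, hcr⟩ := Fermat.Agent.LT.T7.H40.H846.rayLogC846 K Z hZ r hr
  obtain ⟨b, hb, hbper⟩ := Fermat.Agent.LT.T7.H919.unitPeriodsC919 K 𝔑 h𝔑 c hc
  set Λ : (InfinitePlace K → ℝ) →ₗ[ℝ] (InfinitePlace K → ℝ) := Fintype.linearCombination ℝ b
    with hΛ
  have hΛcont : Continuous Λ := LinearMap.continuous_of_finiteDimensional Λ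
  have hΛsurj : Function.Surjective Λ := by
    rw [← LinearMap.range_eq_top, hΛ, Fintype.range_linearCombination]
    exact hb.span_eq_top_of_card_eq_finrank' (Module.finrank_fintype_fun_eq_card ℝ).symm
  refine ⟨fun t => Z (Λ t), ⟨hZ.cont.comp hΛcont, fun s t => ?_, fun t g => hZ.central _ g,
    fun χ hχ t g => hinv χ hχ _ g, fun w z hz => ?_, fun ψ hψ n g => ?_⟩⟩
  · show Z (Λ (s + t)) = Z (Λ s) * Z (Λ t)
    rw [map_add, hZ.mul]
  · obtain ⟨t', ht'⟩ := hsurj w z hz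
    obtain ⟨t, ht⟩ := hΛsurj t'
    exact ⟨t, by rw [ht, ht']⟩
  · obtain ⟨S, hS⟩ := period_subgroup40 hZ ψ
    have hbS : ∀ i, b i ∈ S := by
      intro i
      rw [hS]
      rcases hbper i with h | ⟨ε, hε, h⟩
      · intro g'
        rw [h, hcr]
        exact hψ.ray g'
      · intro g'
        rw [h]
        exact hU Z hZ 𝔑 r ψ hψ ε hε g'
    have hmem : Λ (fun w => (n w : ℝ)) ∈ S := by
      rw [hΛ, Fintype.linearCombination_apply]
      refine S.sum_mem fun i _ => ?_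
      rw [Int.cast_smul_eq_zsmul]
      exact S.zsmul_mem (hbS i) _
    exact (hS _).1 hmem g

/-- The units of `ℤ` have absolute value `1`. -/
theorem log_unit_rat40 (ε : (𝓞 ℚ)ˣ) :
    (fun w : InfinitePlace ℚ => Real.log (w (((ε : 𝓞 ℚ) : ℚ)))) = 0 := by
  funext w
  have h := NumberField.Units.sum_mult_mul_log ε
  rw [Fintype.sum_subsingleton _ w] at h
  rcases mul_eq_zero.1 h with h0 | h0
  · exfalso
    have : (0 : ℝ) < (w.mult : ℝ) := by exact_mod_cast InfinitePlace.mult_pos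
    exact this.ne' h0
  · exact h0

/-- **Over `ℚ` every type has a period family.** -/
theorem periodFamilyTC_rat40 (τ : G ℚ → ℂ) : PeriodFamilyTC ℚ τ := by
  refine periodFamilyTC_of40 fun Z hZ 𝔑 r ψ _ ε _ g => ?_
  have h0 : Z 0 = 1 := by
    have := hZ.mul 0 0
    rw [add_zero] at this
    exact (mul_eq_left (a := Z 0) (b := Z 0)).1 this.symm
  rw [log_unit_rat40 ε, h0, mul_one]

/-- **The orthogonal projection on the invariant cusp functions over `ℚ`, every type.** -/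
theorem projTC_rat40 (τ : G ℚ → ℂ) : ProjTC ℚ τ :=
  projTC_of_period40 (periodFamilyTC_rat40 τ)

end Period

end Fermat.Agent.LT.T7.H40

end
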