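import Mathlib
import Fermat.Agent.LT.T7.H40.ProjT
import Fermat.Agent.LT.T7.H962.SupplyQSpec

/-!
# Row LT, tower T7, node T7.L2Q.1 `SupplyQC`, leaf C3a (row 2261): the projections
# over `ℚ` for the two types (helper40)

OFF-MAIN, additive.  `H962.ProjQC962 n` (`LT/T7/H962/SupplyQSpec.lean` 8375a60b) for `n = w0`
(trivial type) and `n = w1` (weight one), from `projTC_rat40` (`ProjT.lean`): over `ℚ` every
`K_∞`-type has the period family of the ray generator.  Also `H893.ProjC ℚ`.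
-/

set_option autoImplicit false

open AutomorphicForm IsDedekindDomain NumberField MeasureTheory

noncomputable section

namespace Fermat.Agent.LT.T7.H40

open Fermat.Agent.LT.H556 Fermat.Agent.LT.H556.A0 Fermat.Agent.LT.T7

/-- **Row 2261: the projection over `ℚ`, both types (`w0` trivial, `w1` weight one), closed.** -/
theorem projQC962_closed40 (n : Fermat.Agent.LT.T7.L2Q.QWt) :
    Fermat.Agent.LT.T7.H962.ProjQC962 n := by
  intro R hR 𝔫₀ 𝔫 h𝔫 hle u _ ψ hψ
  obtain ⟨ψ₁, ⟨h1, h2, h3⟩, horth⟩ := projTC_rat40 n.type R.μ R.F R.r hR.frame hR.ray 𝔫 𝔫₀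
    h𝔫 hle 1 (fun _ => u) ψ hψ
  exact ⟨ψ₁, ⟨h1, h2, h3⟩, fun χ hχ => horth χ hχ.cusp hχ.arch_scalar hχ.iw⟩

end Fermat.Agent.LT.T7.H40

end
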